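import Fermat.Agent.LevelRaising.Residual
import Fermat.Agent.EC.Torsion.Galois
import Fermat.Prelude.Def_EllipticCurve_FrobeniusTrace

/-!
# Galois traces do not depend on the coordinates
-/

set_option autoImplicit false

open WeierstrassCurve WeierstrassCurve.Affine WeierstrassCurve.Affine.Point
open scoped WeierstrassCurve.Affine

namespace Fermat.Agent.RT.Two.Switch

local notation "Q̄" => AlgebraicClosure ℚ
local notation "GQ" => AlgebraicClosure ℚ ≃ₐ[ℚ] AlgebraicClosure ℚ

/-- A change of coordinates over `ℚ` preserves the trace of Galois on torsion. -/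
theorem galoisTrace_variableChange (E : WeierstrassCurve ℚ) [E.IsElliptic]
    (C : VariableChange ℚ) (p : ℕ) (σ : GQ) :
    galoisTrace (K := Q̄) ℚ (C • E).toAffine p σ = galoisTrace (K := Q̄) ℚ E.toAffine p σ := by
  obtain ⟨eL, heq⟩ := LevelRaising.exists_torsionEquiv_variableChange E C p
  have he : galoisRepModuleEnd ℚ E.toAffine p σ =
      eL.conj (galoisRepModuleEnd ℚ (C • E).toAffine p σ) := by
    refine LinearMap.ext fun x => ?_
    obtain ⟨y, rfl⟩ := eL.surjective x
    rw [LinearEquiv.conj_apply_apply, eL.symm_apply_apply]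
    exact (heq σ y).symm
  show LinearMap.trace _ _ (galoisRepModuleEnd ℚ (C • E).toAffine p σ) =
    LinearMap.trace _ _ (galoisRepModuleEnd ℚ E.toAffine p σ)
  rw [he, LinearMap.trace_conj']

end Fermat.Agent.RT.Two.Switch
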