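import Fermat.Agent.Mazur.Small.Frey
import Fermat.Agent.EC.Reduction.Frey
import Fermat.Prelude.Def_FLTPrelim_ModularRep

/-!
# The mod 5 representation of the Frey curve is irreducible

The discriminant of the Frey curve is a square and there is no rational point on the quotient of
`X₀(5)` classifying five-isogenies with square discriminant.
-/

set_option autoImplicit false

open WeierstrassCurve WeierstrassCurve.Affine WeierstrassCurve.Affine.Point
open scoped WeierstrassCurve.Affine

namespace Fermat.Agent.RT.Two.Switch

/-- For every Frey package the mod 5 representation of the integral Frey model is irreducible. -/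
theorem frey_modRepIsIrreducible_five (P : FreyPackage) :
    P.freyCurveInt.ModRepIsIrreducible 5 := by
  have := Mazur.Small.frey_isElliptic P
  unfold WeierstrassCurve.ModRepIsIrreducible
  rw [← EC.Reduction.Frey.freyCurve_eq_map]
  refine ⟨?_, fun N hN => ?_⟩
  · have hcard := EC.Torsion.natCard_torsionBy_algebraicClosureRat P.freyCurve.toAffine
      (n := 5) (by norm_num)
    have : Finite (Submodule.torsionBy ℤ (P.freyCurve⁄(AlgebraicClosure ℚ)).Point (5 : ℕ)) :=
      Nat.finite_of_card_ne_zero (by rw [hcard]; norm_num)
    exact Finite.one_lt_card_iff_nontrivial.mp (by rw [hcard]; norm_num)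
  · by_contra hne
    rw [not_or] at hne
    exact Mazur.Small.no_stable_line_five (Mazur.Small.frey_delta_square P) hN hne.1 hne.2

end Fermat.Agent.RT.Two.Switch
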