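import Mathlib
import Fermat.Agent.Switch.Forms

/-!
# A covariant line through a vector over a semistable pair of invariants

`(mR, mS)` is the covariant of degree 19. The vector `fC4 • (-fDs, fDr) + fC6 • (r, s)` equals
`-12 fD • (mR, mS)`, so at a place where `fD` is small the line through `(r, s)` in this direction
meets the zero set of `fD` close to the parameter `1`.
-/

set_option autoImplicit false

namespace Fermat.Agent.RT.Two.Switch

open Fermat.Agent.Switch

section Ring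

variable {R : Type*} [CommRing R]

/-- `∂fC4/∂s` divided by 20. -/
def mR (r s : R) : R := -57 * r ^ 15 * s ^ 4 + 247 * r ^ 10 * s ^ 9 + 171 * r ^ 5 * s ^ 14 + s ^ 19

/-- `-∂fC4/∂r` divided by 20. -/
def mS (r s : R) : R := -r ^ 19 + 171 * r ^ 14 * s ^ 5 - 247 * r ^ 9 * s ^ 10 - 57 * r ^ 4 * s ^ 15

theorem covariant_fst (r s : R) :
    fC4 r s * -fDs r s + fC6 r s * r = -12 * fD r s * mR r s := by
  simp only [fC4, fDs, fC6, fD, mR]; ring

theorem covariant_snd (r s : R) :
    fC4 r s * fDr r s + fC6 r s * s = -12 * fD r s * mS r s := by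
  simp only [fC4, fDr, fC6, fD, mS]; ring

theorem gradient_covariant (r s : R) :
    fDr r s * mR r s + fDs r s * mS r s = -fC6 r s := by
  simp only [fDr, fDs, mR, mS, fC6]; ring

theorem det_covariant (r s : R) : r * mS r s - s * mR r s = -fC4 r s := by
  simp only [mR, mS, fC4]; ring

theorem map_mR {S : Type*} [CommRing S] (f : R →+* S) (r s : R) :
    f (mR r s) = mR (f r) (f s) := by
  simp [mR, map_ofNat]

theorem map_mS {S : Type*} [CommRing S] (f : R →+* S) (r s : R) :
    f (mS r s) = mS (f r) (f s) := by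
  simp [mS, map_ofNat]

/-- The remainder of `fC6` after removing minus the square of `(r ^ 5 + s ^ 5) ^ 3`. -/
def rest6 (r s : R) : R :=
  -129 * r ^ 25 * s ^ 5 + 2505 * r ^ 20 * s ^ 10 + 5 * r ^ 15 * s ^ 15 + 2505 * r ^ 10 * s ^ 20
    + 132 * r ^ 5 * s ^ 25

theorem fC6_eq_sq (r s : R) :
    fC6 r s = -((r ^ 5 + s ^ 5) ^ 3) ^ 2 + 4 * rest6 r s := by
  simp only [fC6, rest6]; ring

theorem map_rest6 {S : Type*} [CommRing S] (f : R →+* S) (r s : R) :
    f (rest6 r s) = rest6 (f r) (f s) := by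
  simp [rest6, map_ofNat]

theorem covariant_even (r s : R) :
    ∃ k : R, r ^ 4 * mR r s + s ^ 4 * mS r s = 2 * k :=
  ⟨-29 * r ^ 19 * s ^ 4 + 209 * r ^ 14 * s ^ 9 - 38 * r ^ 9 * s ^ 14 - 28 * r ^ 4 * s ^ 19, by
    simp only [mR, mS]; ring⟩

theorem sqrt6_step (r s ε g k m n : R)
    (h4 : r ^ 4 * m + s ^ 4 * n = 2 * k + 2 * g * (r ^ 5 + s ^ 5)) :
    ∃ a b : R, ((r + ε * m) ^ 5 + (s + ε * n) ^ 5) ^ 3 - (r ^ 5 + s ^ 5) ^ 3
      = 2 * a + ε ^ 4 * b := by
  obtain ⟨c, d, h⟩ : ∃ c d : R,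
      (r + ε * m) ^ 5 + (s + ε * n) ^ 5 - (r ^ 5 + s ^ 5) = 2 * c + ε ^ 4 * d :=
    ⟨5 * ε * (k + g * (r ^ 5 + s ^ 5)) + 5 * ε ^ 2 * (r ^ 3 * m ^ 2 + s ^ 3 * n ^ 2)
      + 5 * ε ^ 3 * (r ^ 2 * m ^ 3 + s ^ 2 * n ^ 3),
      5 * (r * m ^ 4 + s * n ^ 4) + ε * (m ^ 5 + n ^ 5),
      by linear_combination (5 * ε) * h4⟩
  generalize (r + ε * m) ^ 5 + (s + ε * n) ^ 5 = v at h ⊢
  generalize r ^ 5 + s ^ 5 = w at h ⊢
  exact ⟨c * (v ^ 2 + v * w + w ^ 2), d * (v ^ 2 + v * w + w ^ 2),
    by linear_combination (v ^ 2 + v * w + w ^ 2) * h⟩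

/-- Along the line the square root of `-fC6` moves by `2` and by the fourth power of the step. -/
theorem sqrt6_line (r s ε g : R) :
    ∃ a b : R, ((r + ε * (mR r s + 2 * g * r)) ^ 5 + (s + ε * (mS r s + 2 * g * s)) ^ 5) ^ 3
      - (r ^ 5 + s ^ 5) ^ 3 = 2 * a + ε ^ 4 * b := by
  obtain ⟨k, hk⟩ := covariant_even r s
  exact sqrt6_step r s ε g k _ _ (by linear_combination hk)

open Polynomial in
/-- First order expansion with an explicit second order remainder. -/
theorem fD_line_expansion (r s m n : R) :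
    ∃ G : R[X], ∀ e : R[X],
      fD (C r + e * C m) (C s + e * C n)
        = C (fD r s) + e * C (fDr r s * m + fDs r s * n) + e ^ 2 * G.comp e := by
  set P : R[X] := fD (C r + X * C m) (C s + X * C n) with hP
  have h0 : P.coeff 0 = fD r s := by
    rw [coeff_zero_eq_eval_zero, hP, ← coe_evalRingHom, map_fD]
    simp
  have h1 : P.coeff 1 = fDr r s * m + fDs r s * n := by
    have h : (derivative P).eval 0 = fDr r s * m + fDs r s * n := by
      simp [hP, fD, fDr, fDs, derivative_pow]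
      ring
    rw [← coeff_zero_eq_eval_zero, coeff_derivative] at h
    simpa using h
  refine ⟨P.divX.divX, fun e => ?_⟩
  have e1 := X_mul_divX_add P
  have e2 := X_mul_divX_add P.divX
  rw [coeff_divX, zero_add, h1] at e2
  rw [h0, ← e2] at e1
  have hcomp : P.comp e = fD (C r + e * C m) (C s + e * C n) := by
    rw [← coe_compRingHom_apply, hP, map_fD]
    rw [mul_comm e (C m), mul_comm e (C n)]
    simp
  have e3 := congrArg (fun q : R[X] => q.comp e) e1
  simp only [add_comp, mul_comp, C_comp, X_comp] at e3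
  rw [← hcomp, ← e3]
  ring

end Ring

/-- A symmetry multiplies `fD` by its determinant. -/
theorem isSym_fD {K : Type*} [Field K] [CharZero K] {a b c d : K} (h : IsSym a b c d) (r s : K) :
    fD (a * r + b * s) (c * r + d * s) = (a * d - b * c) * fD r s := by
  have e := euler_fD (a * r + b * s) (c * r + d * s)
  have e' := euler_fD r s
  have k1 := h.k1_eq r s
  have k2 := h.k2_eq r s
  refine mul_left_cancel₀ (show (12 : K) ≠ 0 by norm_num) ?_
  linear_combination -e + (a * d - b * c) * e' + (a * r + b * s) * k2 - (c * r + d * s) * k1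

end Fermat.Agent.RT.Two.Switch
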