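import Mathlib
import Fermat.Agent.Switch.Semistable

/-!
# Rational numbers at a place, and values of polynomials at multiples
-/

set_option autoImplicit false

namespace Fermat.Agent.RT.Two.Switch

open Polynomial IsLocalRing Fermat.Agent.Switch

local notation "Qb" => AlgebraicClosure ℚ

variable {p : ℕ} {A : ValuationSubring Qb}

theorem intCast_inv_mem (hA : A.LiesOverPrime p) (hp : p.Prime) {n : ℤ} (hn : ¬ (p : ℤ) ∣ n) :
    ((n : Qb))⁻¹ ∈ A := by
  have hu : IsUnit (n : A) := (residue_ne_zero_iff_isUnit _).mp (by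
    rw [map_intCast]
    exact fun h => hn ((intCast_residue_eq_zero_iff hA hp n).mp h))
  obtain ⟨j, hj⟩ := isUnit_iff_exists_inv.mp hu
  have h1 : (n : Qb) * (j : Qb) = 1 := congrArg Subtype.val hj
  rw [← eq_inv_of_mul_eq_one_right h1]
  exact j.2

theorem ratCast_mem_iff (hA : A.LiesOverPrime p) (hp : p.Prime) (q : ℚ) :
    (q : Qb) ∈ A ↔ ¬ p ∣ q.den := by
  constructor
  · intro hq hd
    have hz : ((q : Qb) * (q.den : ℤ)) = (q.num : Qb) := by exact_mod_cast q.mul_den_eq_num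
    have hnum : ((q.num : ℤ) : ResidueField A) = 0 := by
      have h1 : (⟨_, hq⟩ : A) * ((q.den : ℤ) : A) = (q.num : A) := Subtype.ext hz
      rw [← map_intCast (residue A), ← h1, map_mul, map_intCast,
        (intCast_residue_eq_zero_iff hA hp _).mpr (Int.natCast_dvd_natCast.mpr hd), mul_zero]
    have hdn := (intCast_residue_eq_zero_iff hA hp _).mp hnum
    exact hp.not_dvd_one (q.reduced ▸ Nat.dvd_gcd (Int.natCast_dvd.mp hdn) hd)
  · intro hd
    rw [Rat.cast_def]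
    exact mul_mem (intCast_mem _ _) (by
      have := intCast_inv_mem (n := (q.den : ℤ)) hA hp fun h =>
        hd (Int.natCast_dvd_natCast.mp h)
      rw [Int.cast_natCast] at this
      exact this)

/-- A rational number integral at every place is an integer. -/
theorem exists_int_of_mem {q : ℚ}
    (h : ∀ (p : ℕ), p.Prime → ∃ A : ValuationSubring Qb, A.LiesOverPrime p ∧ (q : Qb) ∈ A) :
    ∃ z : ℤ, (z : ℚ) = q := by
  refine ⟨q.num, Rat.coe_int_num_of_den_eq_one ?_⟩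
  by_contra hne
  obtain ⟨p, hp, hd⟩ := Nat.exists_prime_and_dvd hne
  obtain ⟨A, hA, hq⟩ := h p hp
  exact (ratCast_mem_iff hA hp q).mp hq hd

theorem odd_prime_not_dvd_two_pow (hp : p.Prime) (hp2 : p ≠ 2) (e : ℕ) :
    ¬ (p : ℤ) ∣ (2 : ℤ) ^ e := fun h => hp2 <| by
  have h2 : (p : ℤ) ∣ (2 : ℤ) := (Nat.prime_iff_prime_int.mp hp).dvd_of_dvd_pow h
  exact (Nat.prime_dvd_prime_iff_eq hp Nat.prime_two).mp (by exact_mod_cast h2)

theorem exists_two_pow_mul_odd {n : ℤ} (hn : n ≠ 0) :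
    ∃ (e : ℕ) (L : ℤ), Odd L ∧ n = 2 ^ e * L := by
  obtain ⟨e, m, hm, hnm⟩ := Nat.exists_eq_pow_mul_and_not_dvd (Int.natAbs_ne_zero.mpr hn) 2
    (by norm_num)
  have hodd : Odd (m : ℤ) := (Int.odd_coe_nat m).mpr (Nat.odd_iff.mpr (by omega))
  rcases Int.natAbs_eq n with h | h
  · exact ⟨e, m, hodd, by rw [h, hnm]; push_cast; ring⟩
  · exact ⟨e, -m, hodd.neg, by rw [h, hnm]; push_cast; ring⟩

/-- Values at multiples of a suitable odd number are congruent to the constant term modulo the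
odd part of `K`. -/
theorem exists_modulus (g : ℚ[X]) {K : ℤ} (hK : K ≠ 0) :
    ∃ L : ℤ, Odd L ∧ ∀ y : ℤ, ∃ (e : ℕ) (z : ℤ),
      (g.eval ((L * y : ℤ) : ℚ) - g.eval 0) * 2 ^ e = K * z := by
  obtain ⟨q, hq⟩ : X ∣ g - C (g.eval 0) := by
    rw [X_dvd_iff, coeff_zero_eq_eval_zero]; simp
  obtain ⟨b, hb, hint⟩ := IsLocalization.integerNormalization_spec (nonZeroDivisors ℤ) q
  set q' := IsLocalization.integerNormalization (nonZeroDivisors ℤ) q with hq'
  have hb0 : b ≠ 0 := nonZeroDivisors.ne_zero hb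
  obtain ⟨e, L, hL, hbL⟩ := exists_two_pow_mul_odd (mul_ne_zero hb0 hK)
  refine ⟨L, hL, fun y => ⟨e, y * q'.eval (L * y), ?_⟩⟩
  have e1 : ((q'.eval (L * y) : ℤ) : ℚ) = (b : ℚ) * q.eval ((L * y : ℤ) : ℚ) := by
    have := congrArg (Polynomial.eval ((L * y : ℤ) : ℚ)) hint
    rw [eval_smul, eval_intCast_map] at this
    simpa [zsmul_eq_mul] using this
  have e2 := congrArg (Polynomial.eval ((L * y : ℤ) : ℚ)) hq
  simp only [eval_sub, eval_C, eval_mul, eval_X] at e2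
  have e3 : (b : ℚ) * K = 2 ^ e * L := by exact_mod_cast congrArg (Int.cast (R := ℚ)) hbL
  push_cast at e1 e2 e3 ⊢
  rw [e2, e1]
  linear_combination (-(y : ℚ) * q.eval ((L : ℚ) * y)) * e3

/-- A polynomial congruent to `1 + X` modulo 2 takes values of every positive 2-valuation along
an arithmetic progression. -/
theorem exists_exact_power (f : ℤ[X])
    (hf : f.map (Int.castRingHom (ZMod 2)) = 1 + X) :
    ∀ N : ℕ, 1 ≤ N → ∃ y : ℤ, Odd y ∧ ∀ j : ℤ,
      (2 : ℤ) ^ N ∣ f.eval (y + 2 ^ (N + 1) * j) ∧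
        ¬ (2 : ℤ) ^ (N + 1) ∣ f.eval (y + 2 ^ (N + 1) * j) := by
  have hval : ∀ y : ℤ, ((f.eval y : ℤ) : ZMod 2) = 1 + (y : ZMod 2) := fun y => by
    have := congrArg (Polynomial.eval (y : ZMod 2)) hf
    rw [eval_intCast_map, eq_intCast] at this
    simpa using this
  have hder : ∀ y : ℤ, ¬ (2 : ℤ) ∣ (derivative f).eval y := fun y h => by
    have h0 := (ZMod.intCast_zmod_eq_zero_iff_dvd _ 2).mpr (by exact_mod_cast h)
    have := congrArg (fun g => (derivative g).eval (y : ZMod 2)) hf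
    rw [derivative_map, eval_intCast_map, eq_intCast, Int.cast_id, h0] at this
    simp at this
  have hshift : ∀ (N : ℕ), 1 ≤ N → ∀ y w : ℤ, ∃ k : ℤ,
      f.eval (y + 2 ^ N * w) = f.eval y + 2 ^ N * w * (derivative f).eval y + 2 ^ (N + 1) * k := by
    intro N hN y w
    obtain ⟨k, hk⟩ := Polynomial.binomExpansion f y (2 ^ N * w)
    refine ⟨k * 2 ^ (N - 1) * w ^ 2, ?_⟩
    rw [hk, show (2 : ℤ) ^ N = 2 * 2 ^ (N - 1) by rw [← pow_succ', Nat.sub_add_cancel hN],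
      show (2 : ℤ) ^ (N + 1) = 2 * 2 * 2 ^ (N - 1) by
        rw [mul_assoc, ← pow_succ', Nat.sub_add_cancel hN, pow_succ']]
    ring
  have hbase : ∀ N : ℕ, 1 ≤ N → ∃ y : ℤ, Odd y ∧ (2 : ℤ) ^ N ∣ f.eval y := by
    intro N hN
    induction N, hN using Nat.le_induction with
    | base =>
      refine ⟨1, odd_one, ?_⟩
      rw [pow_one]
      have h := hval 1
      rw [Int.cast_one] at h
      exact_mod_cast (ZMod.intCast_zmod_eq_zero_iff_dvd _ 2).mp (h.trans (by decide))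
    | succ N hN ih =>
      obtain ⟨y, hy, c, hc⟩ := ih
      obtain ⟨k, hk⟩ := hshift N hN y c
      refine ⟨y + 2 ^ N * c, hy.add_even ((even_two.pow_of_ne_zero (by omega)).mul_right c), ?_⟩
      obtain ⟨d, hd⟩ : (2 : ℤ) ∣ 1 + (derivative f).eval y := by
        have := hder y; omega
      rw [hk, hc]
      refine ⟨c * d + k, ?_⟩
      linear_combination (2 : ℤ) ^ N * c * hd
  intro N hN
  obtain ⟨y₀, hy₀, hdvd⟩ := hbase N hN
  obtain ⟨y, hy, hdy, hny⟩ : ∃ y : ℤ, Odd y ∧ (2 : ℤ) ^ N ∣ f.eval y ∧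
      ¬ (2 : ℤ) ^ (N + 1) ∣ f.eval y := by
    by_cases hd : (2 : ℤ) ^ (N + 1) ∣ f.eval y₀
    · obtain ⟨k, hk⟩ := hshift N hN y₀ 1
      refine ⟨y₀ + 2 ^ N * 1, hy₀.add_even ((even_two.pow_of_ne_zero (by omega)).mul_right 1),
        ?_, fun h => hder y₀ ?_⟩
      · rw [hk]
        exact dvd_add (dvd_add hdvd ⟨(derivative f).eval y₀, by ring⟩)
          (dvd_mul_of_dvd_left (pow_dvd_pow 2 (Nat.le_succ N)) k)
      · rw [hk, dvd_add_left (dvd_mul_right _ k), dvd_add_right hd, mul_one, pow_succ] at h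
        exact (mul_dvd_mul_iff_left (pow_ne_zero N two_ne_zero)).mp h
    · exact ⟨y₀, hy₀, hdvd, hd⟩
  refine ⟨y, hy, fun j => ?_⟩
  obtain ⟨k, hk⟩ := hshift (N + 1) (by omega) y j
  have h1 : (2 : ℤ) ^ (N + 1) ∣ f.eval (y + 2 ^ (N + 1) * j) - f.eval y :=
    ⟨j * (derivative f).eval y + 2 * k, by rw [hk, pow_succ (2 : ℤ) (N + 1)]; ring⟩
  refine ⟨?_, fun h => hny ?_⟩
  · have := dvd_add ((pow_dvd_pow 2 (Nat.le_succ N)).trans h1) hdy
    rwa [sub_add_cancel] at this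
  · have := dvd_sub h h1
    rwa [sub_sub_cancel] at this

end Fermat.Agent.RT.Two.Switch
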