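import Mathlib
import Fermat.Agent.RT.Two.Switch.Covariant
import Fermat.Agent.RT.Two.Switch.Values

/-!
# The line through the base point in the covariant direction
-/

set_option autoImplicit false

namespace Fermat.Agent.RT.Two.Switch

open Polynomial IsLocalRing WeierstrassCurve Fermat.Agent.Switch

local notation "Qb" => AlgebraicClosure ℚ

variable {W : WeierstrassCurve ℤ} (F : FamilyData W)

/-- The coefficient of the base point in the covariant direction. -/
def dirCoef (n : ℤ) : ℤ := W.c₆ - 48 * W.Δ * n - F.α * W.c₄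

/-- The first coordinate of the covariant direction. -/
noncomputable def dirR (n : ℤ) : Qb := -((W.c₄ : Qb) * F.u + (dirCoef F n : Qb) * F.r₀) / 12

/-- The second coordinate of the covariant direction. -/
noncomputable def dirS (n : ℤ) : Qb := -((W.c₄ : Qb) * F.v + (dirCoef F n : Qb) * F.s₀) / 12

/-- The first coordinate of the point with parameter `x`. -/
noncomputable def ptR (n : ℤ) (x : ℚ) : Qb := F.r₀ + (x : Qb) * dirR F n

/-- The second coordinate of the point with parameter `x`. -/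
noncomputable def ptS (n : ℤ) (x : ℚ) : Qb := F.s₀ + (x : Qb) * dirS F n

theorem base_Δ : fD F.r₀ F.s₀ ^ 5 = (W.Δ : Qb) := by
  apply mul_left_cancel₀ (show (1728 : Qb) ≠ 0 by norm_num)
  rw [← fC4_cube_sub_fC6_sq, F.c4_base, F.c6_base]
  exact_mod_cast W.c_relation.symm

theorem dirR_eq (n : ℤ) :
    dirR F n = fD F.r₀ F.s₀
      * (mR F.r₀ F.s₀ + 2 * (2 * fD F.r₀ F.s₀ ^ 4 * (n : Qb)) * F.r₀) := by
  have h := covariant_fst F.r₀ F.s₀
  rw [F.c4_base, F.c6_base] at h
  have hD := base_Δ F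
  simp only [dirR, dirCoef, F.hu]
  push_cast
  linear_combination (-(1 : Qb) / 12) * h - (4 * (n : Qb) * F.r₀) * hD

theorem dirS_eq (n : ℤ) :
    dirS F n = fD F.r₀ F.s₀
      * (mS F.r₀ F.s₀ + 2 * (2 * fD F.r₀ F.s₀ ^ 4 * (n : Qb)) * F.s₀) := by
  have h := covariant_snd F.r₀ F.s₀
  rw [F.c4_base, F.c6_base] at h
  have hD := base_Δ F
  simp only [dirS, dirCoef, F.hv]
  push_cast
  linear_combination (-(1 : Qb) / 12) * h - (4 * (n : Qb) * F.s₀) * hD

theorem det_dir (n : ℤ) :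
    F.r₀ * dirS F n - F.s₀ * dirR F n = -(fD F.r₀ F.s₀ * (W.c₄ : Qb)) := by
  have h := F.det_eq
  simp only [dirR, dirS]
  linear_combination (-(W.c₄ : Qb) / 12) * h

theorem exists_dir_ne (h2 : W.Δ ≠ 0) : ∃ n : ℤ, fD (dirR F n) (dirS F n) ≠ 0 := by
  set D := fD F.r₀ F.s₀ with hD
  set m := D * mR F.r₀ F.s₀ with hm
  set k := D * mS F.r₀ F.s₀ with hk
  set P : Qb[X] := fD (C F.r₀ + X * C m) (C F.s₀ + X * C k) with hP
  have hP0 : P ≠ 0 := fun h => F.fD_base <| by
    have := congrArg (Polynomial.eval 0) h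
    simpa [hP, eval_fD] using this
  set f : ℕ → Qb := fun i => (4 * (W.Δ : Qb) * ((i + 1 : ℕ) : Qb))⁻¹ with hf
  have hinj : Function.Injective f := fun i j h => by
    have h4 : (4 : Qb) * (W.Δ : Qb) ≠ 0 := mul_ne_zero (by norm_num) (Int.cast_ne_zero.mpr h2)
    have := mul_left_cancel₀ h4 (inv_injective h)
    simpa using this
  obtain ⟨i, hi⟩ : ∃ i, ¬ P.IsRoot (f i) := by
    by_contra hall
    simp only [not_exists, not_not] at hall
    exact hP0 (eq_zero_of_infinite_isRoot _ (Set.infinite_of_injective_forall_mem hinj hall))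
  refine ⟨(i + 1 : ℕ), fun h => hi ?_⟩
  set c := 4 * (W.Δ : Qb) * ((i + 1 : ℕ) : Qb) with hc
  have hc0 : c ≠ 0 :=
    mul_ne_zero (mul_ne_zero (by norm_num) (Int.cast_ne_zero.mpr h2))
      (Nat.cast_ne_zero.mpr (Nat.succ_ne_zero i))
  have e1 : dirR F (i + 1 : ℕ) = c * (F.r₀ + c⁻¹ * m) := by
    rw [dirR_eq, mul_add c, mul_inv_cancel_left₀ hc0, hc, hm, hD, ← base_Δ F]
    push_cast; ring
  have e2 : dirS F (i + 1 : ℕ) = c * (F.s₀ + c⁻¹ * k) := by
    rw [dirS_eq, mul_add c, mul_inv_cancel_left₀ hc0, hc, hk, hD, ← base_Δ F]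
    push_cast; ring
  rw [e1, e2, fD_smul] at h
  have h0 := (mul_eq_zero.mp h).resolve_left (pow_ne_zero _ hc0)
  simp only [IsRoot.def, hP, eval_fD, eval_add, eval_mul, eval_C, eval_X]
  exact h0

theorem sym_dir (n : ℤ) (σ : Qb ≃ₐ[ℚ] Qb) :
    ∃ a b c d : Qb, IsSym a b c d ∧ σ F.r₀ = a * F.r₀ + b * F.s₀ ∧
      σ F.s₀ = c * F.r₀ + d * F.s₀ ∧ σ (dirR F n) = a * dirR F n + b * dirS F n ∧
      σ (dirS F n) = c * dirR F n + d * dirS F n := by
  obtain ⟨a, b, c, d, hS, hr, hs, hu, hv⟩ := F.sym σ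
  refine ⟨a, b, c, d, hS, hr, hs, ?_, ?_⟩
  · simp only [dirR, dirS, map_div₀, map_neg, map_add, map_mul, map_intCast, map_ofNat, hu, hr]
    ring
  · simp only [dirR, dirS, map_div₀, map_neg, map_add, map_mul, map_intCast, map_ofNat, hv, hs]
    ring

/-- The invariants and the discriminant along the line are rational polynomials. -/
theorem exists_line_polys (n : ℤ) :
    ∃ p4 p6 ph : ℚ[X],
      p4.map (algebraMap ℚ Qb)
          = fC4 (C F.r₀ + X * C (dirR F n)) (C F.s₀ + X * C (dirS F n)) ∧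
      p6.map (algebraMap ℚ Qb)
          = fC6 (C F.r₀ + X * C (dirR F n)) (C F.s₀ + X * C (dirS F n)) ∧
      C (fD F.r₀ F.s₀) * ph.map (algebraMap ℚ Qb)
          = fD (C F.r₀ + X * C (dirR F n)) (C F.s₀ + X * C (dirS F n)) := by
  set Pr := C F.r₀ + X * C (dirR F n) with hPr
  set Ps := C F.s₀ + X * C (dirS F n) with hPs
  obtain ⟨p4, hp4⟩ := exists_rat_poly (P := fC4 Pr Ps) fun σ => by
    obtain ⟨a, b, c, d, hS, hr, hs, hu, hv⟩ := sym_dir F n σ
    apply Polynomial.funext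
    intro x
    rw [← coe_mapRingHom, map_fC4, coe_mapRingHom, eval_fC4, eval_fC4]
    simp only [hPr, hPs, Polynomial.map_add, Polynomial.map_mul, map_C, map_X, eval_add, eval_mul,
      eval_C, eval_X, RingHom.coe_coe, hr, hs, hu, hv]
    conv_rhs => rw [← hS.c4_eq]
    congr 1 <;> ring
  obtain ⟨p6, hp6⟩ := exists_rat_poly (P := fC6 Pr Ps) fun σ => by
    obtain ⟨a, b, c, d, hS, hr, hs, hu, hv⟩ := sym_dir F n σ
    apply Polynomial.funext
    intro x
    rw [← coe_mapRingHom, map_fC6, coe_mapRingHom, eval_fC6, eval_fC6]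
    simp only [hPr, hPs, Polynomial.map_add, Polynomial.map_mul, map_C, map_X, eval_add, eval_mul,
      eval_C, eval_X, RingHom.coe_coe, hr, hs, hu, hv]
    conv_rhs => rw [← hS.c6_eq]
    congr 1 <;> ring
  obtain ⟨ph, hph⟩ := exists_rat_poly (P := C (fD F.r₀ F.s₀)⁻¹ * fD Pr Ps) fun σ => by
    obtain ⟨a, b, c, d, hS, hr, hs, hu, hv⟩ := sym_dir F n σ
    have hσD : σ (fD F.r₀ F.s₀) = (a * d - b * c) * fD F.r₀ F.s₀ := by
      rw [← isSym_fD hS, ← hr, ← hs]
      exact map_fD (σ : Qb →+* Qb) _ _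
    have hdet : a * d - b * c ≠ 0 := fun h0 =>
      F.fD_base (σ.injective (by rw [hσD, h0, zero_mul, map_zero]))
    apply Polynomial.funext
    intro x
    rw [Polynomial.map_mul, map_C, ← coe_mapRingHom, map_fD, coe_mapRingHom, eval_mul, eval_mul,
      eval_C, eval_C, eval_fD, eval_fD]
    simp only [hPr, hPs, Polynomial.map_add, Polynomial.map_mul, map_C, map_X, eval_add, eval_mul,
      eval_C, eval_X, RingHom.coe_coe, hr, hs, hu, hv, map_inv₀, hσD]
    rw [show a * F.r₀ + b * F.s₀ + x * (a * dirR F n + b * dirS F n)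
        = a * (F.r₀ + x * dirR F n) + b * (F.s₀ + x * dirS F n) by ring,
      show c * F.r₀ + d * F.s₀ + x * (c * dirR F n + d * dirS F n)
        = c * (F.r₀ + x * dirR F n) + d * (F.s₀ + x * dirS F n) by ring, isSym_fD hS, mul_inv]
    field_simp
  refine ⟨p4, p6, ph, hp4, hp6, ?_⟩
  rw [hph, ← mul_assoc, ← C_mul, mul_inv_cancel₀ F.fD_base, C_1, one_mul]

end Fermat.Agent.RT.Two.Switch
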