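import Mathlib

/-!
# A model with given invariants over a semistable one with odd `c₄`
-/

set_option autoImplicit false

namespace Fermat.Agent.RT.Two.Switch

theorem odd_a₁_of_odd_c₄ {W : WeierstrassCurve ℤ} (h : Odd W.c₄) : Odd W.a₁ := by
  rcases Int.even_or_odd W.a₁ with ⟨a, ha⟩ | h'
  · exfalso
    refine Int.not_even_iff_odd.mpr h ⟨8 * (a ^ 2 + W.a₂) ^ 2 - 12 * (2 * W.a₄ + W.a₁ * W.a₃), ?_⟩
    simp only [WeierstrassCurve.c₄, WeierstrassCurve.b₂, WeierstrassCurve.b₄, ha]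
    ring
  · exact h'

theorem b₂_mod_four {W : WeierstrassCurve ℤ} (h : Odd W.c₄) : (4 : ℤ) ∣ W.b₂ - 1 := by
  obtain ⟨a, ha⟩ := odd_a₁_of_odd_c₄ h
  exact ⟨a ^ 2 + a + W.a₂, by simp only [WeierstrassCurve.b₂, ha]; ring⟩

theorem c₆_mod_four {W : WeierstrassCurve ℤ} (h : Odd W.c₄) : (4 : ℤ) ∣ W.c₆ + 1 := by
  obtain ⟨k, hk⟩ := b₂_mod_four h
  refine ⟨-k * (W.b₂ ^ 2 + W.b₂ + 1) + 9 * W.b₂ * W.b₄ - 54 * W.b₆, ?_⟩
  simp only [WeierstrassCurve.c₆]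
  linear_combination -(W.b₂ ^ 2 + W.b₂ + 1) * hk

/-- A pair of invariants congruent to those of a model with odd `c₄` at 2 and at 3 is the pair
of invariants of an integral model. -/
theorem exists_model {W : WeierstrassCurve ℤ} {C4 C6 D : ℤ} (hodd : Odd W.c₄) (hC4 : Odd C4)
    (hrel : C4 ^ 3 - C6 ^ 2 = 1728 * D) (h6 : (4 : ℤ) ∣ C6 - W.c₆)
    (h34 : (27 : ℤ) ∣ C4 - W.c₄) (h36 : (27 : ℤ) ∣ C6 - W.c₆) :
    ∃ M : WeierstrassCurve ℤ, M.c₄ = C4 ∧ M.c₆ = C6 ∧ M.Δ = D := by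
  obtain ⟨i, hi⟩ := b₂_mod_four hodd
  obtain ⟨j, hj⟩ : (4 : ℤ) ∣ C6 + 1 := by
    have := dvd_add h6 (c₆_mod_four hodd)
    rwa [show C6 - W.c₆ + (W.c₆ + 1) = C6 + 1 by ring] at this
  obtain ⟨a, ha⟩ := hC4
  obtain ⟨l, hl⟩ : (4 : ℤ) ∣ C4 - 1 := by
    have h4 : (4 : ℤ) ∣ C4 ^ 3 - 1 := ⟨432 * D + 4 * j ^ 2 - 2 * j, by
      linear_combination hrel + (C6 - 1 + 4 * j) * hj⟩
    have h4' : IsCoprime (4 : ℤ) (C4 ^ 2 + C4 + 1) := by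
      have h2 : IsCoprime (2 : ℤ) (C4 ^ 2 + C4 + 1) :=
        ⟨-(2 * a ^ 2 + 3 * a + 1), 1, by rw [ha]; ring⟩
      rw [show (4 : ℤ) = 2 * 2 by norm_num]
      exact h2.mul_left h2
    exact h4'.dvd_of_dvd_mul_right
      (by rwa [show (C4 - 1) * (C4 ^ 2 + C4 + 1) = C4 ^ 3 - 1 by ring])
  have hco : IsCoprime C4 (64 : ℤ) :=
    ⟨1 - 4 * l + 16 * l ^ 2, -l ^ 3, by
      rw [show C4 = 1 + 4 * l by linarith]; ring⟩
  obtain ⟨u, v, huv⟩ := hco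
  obtain ⟨k, hk⟩ : (4 : ℤ) ∣ -C6 * u - W.b₂ :=
    ⟨-j * u - u * l - 16 * v - i, by linear_combination (-u) * hj - hi - u * hl + huv⟩
  set r := 11 * k with hr
  set b := W.b₂ + 12 * r with hb
  set b4 := W.b₄ + r * W.b₂ + 6 * r ^ 2 with hb4
  set b6 := W.b₆ + 2 * r * W.b₄ + r ^ 2 * W.b₂ + 4 * r ^ 3 with hb6
  obtain ⟨q, hq⟩ : (64 : ℤ) ∣ b * C4 + C6 :=
    ⟨2 * k * C4 + v * C6, by rw [hb, hr]; linear_combination (-C4) * hk - C6 * huv⟩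
  have hco : IsCoprime (64 : ℤ) C4 := ⟨v, u, by linear_combination huv⟩
  have e64 : (64 : ℤ) ∣ b ^ 2 - C4 := by
    refine (hco.pow_right (n := 2)).dvd_of_dvd_mul_left ⟨q * (b * C4 - C6) - 27 * D, ?_⟩
    linear_combination (b * C4 - C6) * hq - hrel
  have f64 : (64 : ℤ) ∣ b ^ 3 - 3 * b * C4 - 2 * C6 := by
    refine (hco.pow_right (n := 3)).dvd_of_dvd_mul_left
      ⟨q * ((b * C4) ^ 2 - b * C4 * C6 + C6 ^ 2 - 3 * C4 ^ 3) + 27 * D * C6, ?_⟩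
    linear_combination ((b * C4) ^ 2 - b * C4 * C6 + C6 ^ 2 - 3 * C4 ^ 3) * hq + C6 * hrel
  obtain ⟨x, hx⟩ := h34
  obtain ⟨y, hy⟩ := h36
  have e3 : (3 : ℤ) ∣ b ^ 2 - C4 := ⟨8 * b4 - 9 * x, by
    rw [hb4, hb]; simp only [WeierstrassCurve.c₄] at hx; linear_combination -hx⟩
  have f27 : (27 : ℤ) ∣ b ^ 3 - 3 * b * C4 - 2 * C6 := ⟨16 * b6 - 3 * b * x - 2 * y, by
    rw [hb6, hb]; simp only [WeierstrassCurve.c₄, WeierstrassCurve.c₆] at hx hy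
    linear_combination (-3 * (W.b₂ + 12 * r)) * hx - 2 * hy⟩
  obtain ⟨a4, ha4⟩ : (48 : ℤ) ∣ b ^ 2 - C4 := by
    have : (16 : ℤ) ∣ b ^ 2 - C4 := dvd_trans (by norm_num) e64
    omega
  obtain ⟨a6, ha6⟩ : (1728 : ℤ) ∣ b ^ 3 - 3 * b * C4 - 2 * C6 := by omega
  set M : WeierstrassCurve ℤ := ⟨1, i + 3 * r, 0, a4, a6⟩ with hM
  have hb2 : M.b₂ = b := by
    simp only [hM, WeierstrassCurve.b₂, hb] at hi ⊢; linear_combination -hi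
  have hc4 : M.c₄ = C4 := by
    rw [WeierstrassCurve.c₄, hb2]; simp only [hM, WeierstrassCurve.b₄]; linear_combination ha4
  have hc6 : M.c₆ = C6 := by
    rw [WeierstrassCurve.c₆, hb2]; simp only [hM, WeierstrassCurve.b₄, WeierstrassCurve.b₆]
    apply mul_left_cancel₀ (show (2 : ℤ) ≠ 0 by norm_num)
    linear_combination (-3 * b) * ha4 + ha6
  refine ⟨M, hc4, hc6, ?_⟩
  have h := M.c_relation
  rw [hc4, hc6, hrel] at h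
  exact mul_left_cancel₀ (by norm_num) h

end Fermat.Agent.RT.Two.Switch
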