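import Mathlib
import Fermat.Agent.RT.Two.Switch.Line
import Fermat.Agent.RT.Two.Switch.Model

/-!
# The line at the prime 2
-/

set_option autoImplicit false

namespace Fermat.Agent.RT.Two.Switch

open Polynomial IsLocalRing WeierstrassCurve Fermat.Agent.Switch

local notation "Qb" => AlgebraicClosure ℚ

variable {W : WeierstrassCurve ℤ} (F : FamilyData W) {A : ValuationSubring Qb}

theorem odd_c₄_of_semistable (hW : W.IsSemistableModel) (h2 : (2 : ℤ) ∣ W.Δ) : Odd W.c₄ :=
  Int.not_even_iff_odd.mp fun h =>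
    hW 2 Nat.prime_two (by exact_mod_cast h2) (by exact_mod_cast even_iff_two_dvd.mp h)

theorem lift_ptR {r s : A} (hr : (r : Qb) = F.r₀) (hs : (s : Qb) = F.s₀) (n x : ℤ) :
    A.subtype (r + (x : A) * fD r s * (mR r s + 2 * (2 * fD r s ^ 4 * (n : A)) * r))
      = ptR F n (x : ℚ) := by
  simp only [map_add, map_mul, map_intCast, map_fD, map_mR, map_pow, map_ofNat, ptR, dirR_eq,
    Rat.cast_intCast]
  show (r : Qb) + _ = _
  rw [show A.subtype r = (r : Qb) from rfl, show A.subtype s = (s : Qb) from rfl, hr, hs]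
  ring

theorem lift_ptS {r s : A} (hr : (r : Qb) = F.r₀) (hs : (s : Qb) = F.s₀) (n x : ℤ) :
    A.subtype (s + (x : A) * fD r s * (mS r s + 2 * (2 * fD r s ^ 4 * (n : A)) * s))
      = ptS F n (x : ℚ) := by
  simp only [map_add, map_mul, map_intCast, map_fD, map_mS, map_pow, map_ofNat, ptS, dirS_eq,
    Rat.cast_intCast]
  show (s : Qb) + _ = _
  rw [show A.subtype r = (r : Qb) from rfl, show A.subtype s = (s : Qb) from rfl, hr, hs]
  ring

theorem base_lift {r s : A} (hr : (r : Qb) = F.r₀) (hs : (s : Qb) = F.s₀) :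
    fC4 r s = (W.c₄ : A) ∧ fC6 r s = (W.c₆ : A) ∧ fD r s ^ 5 = (W.Δ : A) := by
  have hinj : Function.Injective A.subtype := fun x y h => Subtype.ext h
  have er : A.subtype r = F.r₀ := hr
  have es : A.subtype s = F.s₀ := hs
  refine ⟨hinj ?_, hinj ?_, hinj ?_⟩
  · rw [map_fC4, er, es, map_intCast, F.c4_base]
  · rw [map_fC6, er, es, map_intCast, F.c6_base]
  · rw [map_pow, map_fD, er, es, map_intCast, base_Δ]

theorem even_difference {R : Type*} [CommRing R] {w a b ε e u v : R} (he : ε ^ 8 = 2 * e) :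
    -(w + 2 * a + ε ^ 4 * b) ^ 2 + 4 * u - (-w ^ 2 + 4 * v)
      = 2 * (-(2 * a * (w + a) + ε ^ 4 * b * (2 * a + w) + e * b ^ 2) + 2 * (u - v)) := by
  linear_combination (-(b ^ 2)) * he

theorem residue_two (hA : A.LiesOverPrime 2) : (2 : ResidueField A) = 0 := by
  exact_mod_cast (intCast_residue_eq_zero_iff hA Nat.prime_two 2).mpr (by norm_num)

theorem residue_odd (hA : A.LiesOverPrime 2) {m : ℤ} (hm : Odd m) :
    (m : ResidueField A) = 1 := by
  obtain ⟨k, rfl⟩ := hm
  push_cast
  rw [residue_two hA]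
  ring

theorem residue_fD_eq_zero (hA : A.LiesOverPrime 2) (h2 : (2 : ℤ) ∣ W.Δ) {r s : A}
    (hr : (r : Qb) = F.r₀) (hs : (s : Qb) = F.s₀) : residue A (fD r s) = 0 := by
  have h := congrArg (residue A) (base_lift F hr hs).2.2
  rw [map_pow, map_intCast, (intCast_residue_eq_zero_iff hA Nat.prime_two _).mpr
    (by exact_mod_cast h2)] at h
  simpa using h

/-- The invariants of an integral member are congruent to those of the base at 2. -/
theorem values_at_two (hA : A.LiesOverPrime 2) (h2 : (2 : ℤ) ∣ W.Δ) (n x : ℤ) :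
    (fC4 (ptR F n x) (ptS F n x) ∈ A ∧ fC6 (ptR F n x) (ptS F n x) ∈ A) ∧
      (∀ C4 : ℤ, (C4 : Qb) = fC4 (ptR F n x) (ptS F n x) → (2 : ℤ) ∣ C4 - W.c₄) ∧
      ∀ C6 : ℤ, (C6 : Qb) = fC6 (ptR F n x) (ptS F n x) → (4 : ℤ) ∣ C6 - W.c₆ := by
  obtain ⟨hrA, hsA⟩ := F.base_mem_of_ne_five Nat.prime_two (by norm_num) hA
  set r : A := ⟨F.r₀, hrA⟩ with hr
  set s : A := ⟨F.s₀, hsA⟩ with hs
  obtain ⟨e4, e6, eD⟩ := base_lift F (r := r) (s := s) rfl rfl
  have hD : residue A (fD r s) = 0 := residue_fD_eq_zero F hA h2 (r := r) (s := s) rfl rfl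
  set g : A := 2 * fD r s ^ 4 * (n : A) with hg
  set ε : A := (x : A) * fD r s with hε
  set R : A := r + ε * (mR r s + 2 * g * r) with hR
  set S : A := s + ε * (mS r s + 2 * g * s) with hS
  have eR : A.subtype R = ptR F n x := lift_ptR F (r := r) (s := s) rfl rfl n x
  have eS : A.subtype S = ptS F n x := lift_ptS F (r := r) (s := s) rfl rfl n x
  have hε0 : residue A ε = 0 := by rw [hε, map_mul, hD, mul_zero]
  have hR0 : residue A R = residue A r := by rw [hR, map_add, map_mul, hε0, zero_mul, add_zero]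
  have hS0 : residue A S = residue A s := by rw [hS, map_add, map_mul, hε0, zero_mul, add_zero]
  have hinj : Function.Injective A.subtype := fun x y h => Subtype.ext h
  have hmem4 : A.subtype (fC4 R S) = fC4 (ptR F n x) (ptS F n x) := by rw [map_fC4, eR, eS]
  have hmem6 : A.subtype (fC6 R S) = fC6 (ptR F n x) (ptS F n x) := by rw [map_fC6, eR, eS]
  refine ⟨⟨hmem4 ▸ (fC4 R S).2, hmem6 ▸ (fC6 R S).2⟩, fun C4 hC4 => ?_, fun C6 hC6 => ?_⟩
  · have h : (C4 : A) = fC4 R S := hinj (by rw [map_intCast, hmem4, hC4])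
    refine (intCast_residue_eq_zero_iff hA Nat.prime_two _).mp ?_
    rw [← map_intCast (residue A), Int.cast_sub, h, ← e4, map_sub, map_fC4, map_fC4, hR0, hS0,
      sub_self]
  · have h : (C6 : A) = fC6 R S := hinj (by rw [map_intCast, hmem6, hC6])
    have hr6 : residue A (rest6 R S - rest6 r s) = 0 := by
      rw [map_sub, map_rest6, map_rest6, hR0, hS0, sub_self]
    obtain ⟨a, b, hab⟩ := sqrt6_line r s ε g
    obtain ⟨k, hk⟩ := h2
    have eDk : fD r s ^ 5 = 2 * (k : A) := by rw [eD, hk, Int.cast_mul, Int.cast_ofNat]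
    have hε8 : ε ^ 8 = 2 * ((x : A) ^ 8 * fD r s ^ 3 * (k : A)) := by
      rw [hε, mul_pow, show fD r s ^ 8 = fD r s ^ 3 * fD r s ^ 5 from pow_add _ 3 5, eDk]
      ring
    have hR' : (R ^ 5 + S ^ 5) ^ 3 = (r ^ 5 + s ^ 5) ^ 3 + 2 * a + ε ^ 4 * b := by
      rw [add_assoc, ← hab, add_sub_cancel]
    obtain ⟨q, hq0, hdiff⟩ : ∃ q : A, residue A q = 0 ∧ ((C6 - W.c₆ : ℤ) : A) = 2 * q := by
      refine ⟨-(2 * a * ((r ^ 5 + s ^ 5) ^ 3 + a)
        + ε ^ 4 * b * (2 * a + (r ^ 5 + s ^ 5) ^ 3)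
        + (x : A) ^ 8 * fD r s ^ 3 * (k : A) * b ^ 2) + 2 * (rest6 R S - rest6 r s), ?_, ?_⟩
      rotate_left
      · rw [Int.cast_sub, h, ← e6, fC6_eq_sq, fC6_eq_sq, hR']
        exact even_difference hε8
      · simp only [map_add, map_neg, map_mul, map_pow, map_ofNat, residue_two hA, hε0, hD, hr6,
          zero_mul, mul_zero, add_zero, neg_zero, zero_pow (show (4 : ℕ) ≠ 0 by norm_num),
          zero_pow (show (3 : ℕ) ≠ 0 by norm_num)]
    obtain ⟨z, hz⟩ : (2 : ℤ) ∣ C6 - W.c₆ := by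
      refine (intCast_residue_eq_zero_iff hA Nat.prime_two _).mp ?_
      rw [← map_intCast (residue A), hdiff, map_mul, map_ofNat, residue_two hA, zero_mul]
    have hzq : (z : A) = q := by
      rw [hz, Int.cast_mul, Int.cast_ofNat] at hdiff
      have h20 : (2 : A) ≠ 0 := fun h0 => two_ne_zero (α := Qb) (congrArg Subtype.val h0)
      exact mul_left_cancel₀ h20 hdiff
    obtain ⟨t, rfl⟩ : (2 : ℤ) ∣ z := by
      refine (intCast_residue_eq_zero_iff hA Nat.prime_two _).mp ?_
      rw [← map_intCast (residue A), hzq, hq0]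
    rw [hz, ← mul_assoc]
    exact dvd_mul_of_dvd_left (by norm_num) t

/-- The ratio of discriminant forms, cleared of odd denominators, is `1 + X` modulo 2. -/
theorem exists_reduction (hA : A.LiesOverPrime 2) (hW : W.IsSemistableModel)
    (h2 : (2 : ℤ) ∣ W.Δ) (n : ℤ) {ph : ℚ[X]}
    (hph : C (fD F.r₀ F.s₀) * ph.map (algebraMap ℚ Qb)
      = fD (C F.r₀ + X * C (dirR F n)) (C F.s₀ + X * C (dirS F n)))
    {L : ℤ} (hL : Odd L) :
    ∃ (f : ℤ[X]) (b : ℤ), Odd b ∧ f.map (Int.castRingHom (ZMod 2)) = 1 + X ∧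
      ∀ y : ℤ, ((f.eval y : ℤ) : ℚ) = (b : ℚ) * ph.eval ((L * y : ℤ) : ℚ) := by
  obtain ⟨hrA, hsA⟩ := F.base_mem_of_ne_five Nat.prime_two (by norm_num) hA
  set r : A := ⟨F.r₀, hrA⟩ with hr
  set s : A := ⟨F.s₀, hsA⟩ with hs
  obtain ⟨e4, e6, -⟩ := base_lift F (r := r) (s := s) rfl rfl
  have hD : residue A (fD r s) = 0 := residue_fD_eq_zero F hA h2 (r := r) (s := s) rfl rfl
  set g : A := 2 * fD r s ^ 4 * (n : A) with hg
  set m : A := mR r s + 2 * g * r with hm
  set k : A := mS r s + 2 * g * s with hk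
  obtain ⟨G, hG⟩ := fD_line_expansion r s m k
  set hA' : A[X] := 1 + X * C (fDr r s * m + fDs r s * k)
    + X ^ 2 * C (fD r s) * G.comp (X * C (fD r s)) with hhA'
  have hexp : C (fD r s) * hA' = fD (C r + X * C (fD r s * m)) (C s + X * C (fD r s * k)) := by
    rw [C_mul, C_mul, ← mul_assoc, ← mul_assoc, hG, hhA']
    ring
  have er : A.subtype r = F.r₀ := rfl
  have es : A.subtype s = F.s₀ := rfl
  have hmapA : hA'.map A.subtype = ph.map (algebraMap ℚ Qb) := by
    apply mul_left_cancel₀ (C_ne_zero.mpr F.fD_base)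
    rw [hph]
    have eR : A.subtype (fD r s * m) = dirR F n := by
      simp only [hm, hg, dirR_eq, map_add, map_mul, map_pow, map_ofNat, map_mR, map_fD, er, es,
        map_intCast]
    have eS : A.subtype (fD r s * k) = dirS F n := by
      simp only [hk, hg, dirS_eq, map_add, map_mul, map_pow, map_ofNat, map_mS, map_fD, er, es,
        map_intCast]
    have h := congrArg (Polynomial.map A.subtype) hexp
    rw [Polynomial.map_mul, map_C, map_fD A.subtype r s, er, es] at h
    rw [h, ← coe_mapRingHom, map_fD (mapRingHom A.subtype) (C r + _) (C s + _), coe_mapRingHom,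
      Polynomial.map_add, Polynomial.map_add, Polynomial.map_mul, Polynomial.map_mul, map_C, map_C,
      map_C, map_C, map_X, er, es, eR, eS]
  have hred : hA'.map (residue A) = 1 + X := by
    have hgrad : residue A (fDr r s * m + fDs r s * k) = 1 := by
      have hg0 : residue A g = 0 := by
        rw [hg, map_mul, map_mul, map_pow, hD, zero_pow (by norm_num), mul_zero, zero_mul]
      have hc6 : Odd W.c₆ := by
        obtain ⟨j, hj⟩ := c₆_mod_four (odd_c₄_of_semistable hW h2)
        exact ⟨2 * j - 1, by linarith⟩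
      have h := congrArg (residue A) (gradient_covariant r s)
      rw [e6, map_neg, map_intCast, residue_odd hA hc6] at h
      rw [hm, hk]
      simp only [map_add, map_mul, hg0, mul_zero, zero_mul, add_zero] at h ⊢
      rw [h]
      linear_combination -residue_two hA
    rw [hhA', Polynomial.map_add, Polynomial.map_add, Polynomial.map_one, Polynomial.map_mul,
      Polynomial.map_mul, Polynomial.map_mul, Polynomial.map_pow, map_X, map_C, map_C, hgrad, hD]
    simp
  have hden : ∀ i, Odd ((ph.coeff i).den : ℤ) := by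
    intro i
    have e : ((ph.coeff i : ℚ) : Qb) = A.subtype (hA'.coeff i) := by
      rw [← coeff_map, hmapA, coeff_map, eq_ratCast]
    have hnd := (ratCast_mem_iff hA Nat.prime_two (ph.coeff i)).mp (e ▸ (hA'.coeff i).2)
    exact (Int.odd_coe_nat _).mpr (Nat.odd_iff.mpr (by omega))
  set b : ℤ := ∏ i ∈ Finset.range (ph.natDegree + 1), ((ph.coeff i).den : ℤ) with hb
  have hbodd : Odd b := Finset.prod_induction _ Odd (fun a c => Odd.mul) odd_one fun i _ => hden i
  obtain ⟨f, hf⟩ : C (b : ℚ) * ph.comp (C (L : ℚ) * X) ∈ lifts (Int.castRingHom ℚ) := by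
    rw [lifts_iff_coeff_lifts]
    intro i
    rw [coeff_C_mul, comp_C_mul_X_coeff]
    by_cases hi : i ≤ ph.natDegree
    · obtain ⟨c, hc⟩ : ((ph.coeff i).den : ℤ) ∣ b :=
        Finset.dvd_prod_of_mem _ (Finset.mem_range.mpr (Nat.lt_succ_of_le hi))
      refine ⟨(ph.coeff i).num * c * L ^ i, ?_⟩
      rw [hc]
      simp only [eq_intCast]
      push_cast
      linear_combination (-(c : ℚ) * (L : ℚ) ^ i) * (ph.coeff i).mul_den_eq_num
    · exact ⟨0, by rw [coeff_eq_zero_of_natDegree_lt (not_le.mp hi)]; simp⟩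
  rw [coe_mapRingHom] at hf
  refine ⟨f, b, hbodd, ?_, fun y => ?_⟩
  · have h1 : (f.map (Int.castRingHom A)).map A.subtype
        = (C (b : A) * hA'.comp (C (L : A) * X)).map A.subtype := by
      rw [Polynomial.map_map, show A.subtype.comp (Int.castRingHom A)
          = (algebraMap ℚ Qb).comp (Int.castRingHom ℚ) from RingHom.ext_int _ _,
        ← Polynomial.map_map, hf]
      simp only [Polynomial.map_mul, map_comp, hmapA, map_X, _root_.map_intCast,
        Polynomial.map_intCast]
    have h2' := congrArg (Polynomial.map (residue A))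
      (Polynomial.map_injective A.subtype (fun x y h => Subtype.ext h) h1)
    have hb1 : ∀ m : ℤ, Odd m → (m : (ResidueField A)[X]) = 1 := fun m hm => by
      rw [← _root_.map_intCast (C : ResidueField A →+* (ResidueField A)[X]), residue_odd hA hm, C_1]
    simp only [Polynomial.map_map, Polynomial.map_mul, map_comp, hred, map_X,
      _root_.map_intCast, Polynomial.map_intCast, hb1 b hbodd, hb1 L hL, one_mul, comp_X] at h2'
    rw [show (1 + X : (ZMod 2)[X]) = (1 + X : ℤ[X]).map (Int.castRingHom (ZMod 2)) by simp]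
    ext i
    rw [coeff_map, coeff_map, eq_intCast, eq_intCast, eq_comm,
      ZMod.intCast_eq_intCast_iff_dvd_sub]
    refine (intCast_residue_eq_zero_iff hA Nat.prime_two _).mp ?_
    rw [Int.cast_sub, sub_eq_zero]
    have h3 := congrArg (fun p => Polynomial.coeff p i) h2'
    rw [show (1 + X : (ResidueField A)[X])
      = (1 + X : ℤ[X]).map (Int.castRingHom (ResidueField A)) by simp] at h3
    simp only [coeff_map, eq_intCast] at h3
    exact h3
  · have h := congrArg (Polynomial.eval (y : ℚ)) hf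
    rw [eval_intCast_map, eq_intCast, Int.cast_id, eval_mul, eval_C, eval_comp, eval_mul, eval_C,
      eval_X] at h
    rw [h, Int.cast_mul]

end Fermat.Agent.RT.Two.Switch
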