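import Mathlib
import Fermat.Agent.RT.Two.Switch.AtTwo

/-!
# Semistable members with prescribed 2-adic valuation of the discriminant
-/

set_option autoImplicit false

namespace Fermat.Agent.RT.Two.Switch

open Polynomial IsLocalRing WeierstrassCurve Fermat.Agent.Switch

local notation "Qb" => AlgebraicClosure ℚ

variable {W : WeierstrassCurve ℤ} (F : FamilyData W)

/-- The properties of a member of the line with parameter `x`. -/
def IsMember (n x : ℤ) (M : WeierstrassCurve ℤ) : Prop :=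
  M.Δ ≠ 0 ∧ M.IsSemistableModel ∧ (2 : ℤ) ∣ M.Δ ∧ 3 ∣ padicValInt 2 M.Δ ∧
    (M.c₄ : Qb) = fC4 (ptR F n x) (ptS F n x) ∧ (M.c₆ : Qb) = fC6 (ptR F n x) (ptS F n x)

/-- A rational number close to an integer at the odd primes and integral at 2 is an integer with
the same congruences. -/
theorem exists_int_near {q : ℚ} {c K : ℤ}
    (h2 : ∀ A : ValuationSubring Qb, A.LiesOverPrime 2 → (q : Qb) ∈ A)
    (h : ∃ (e : ℕ) (z : ℤ), (q - c) * 2 ^ e = K * z) :
    ∃ C : ℤ, (C : ℚ) = q ∧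
      ∀ p k : ℕ, p.Prime → p ≠ 2 → (p : ℤ) ^ k ∣ K → (p : ℤ) ^ k ∣ C - c := by
  obtain ⟨e, z, hz⟩ := h
  obtain ⟨C, hC⟩ : ∃ C : ℤ, (C : ℚ) = q := by
    refine exists_int_of_mem fun p hp => ?_
    obtain ⟨A, hA⟩ := Arith.exists_liesOverPrime hp
    refine ⟨A, hA, ?_⟩
    by_cases hp2 : p = 2
    · subst hp2; exact h2 A hA
    have hq : q = (c : ℚ) + (K : ℚ) * z * (((2 : ℤ) ^ e : ℤ) : ℚ)⁻¹ := by
      rw [← hz]
      push_cast
      field_simp
      ring
    rw [hq, Rat.cast_add, Rat.cast_mul, Rat.cast_mul, Rat.cast_inv, Rat.cast_intCast,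
      Rat.cast_intCast, Rat.cast_intCast, Rat.cast_intCast]
    exact add_mem (intCast_mem _ _) (mul_mem (mul_mem (intCast_mem _ _) (intCast_mem _ _))
      (intCast_inv_mem hA hp (odd_prime_not_dvd_two_pow hp hp2 e)))
  refine ⟨C, hC, fun p k hp hp2 hk => ?_⟩
  have hz' : (C - c) * 2 ^ e = K * z := by
    rw [← hC] at hz
    exact_mod_cast hz
  have hco : IsCoprime ((p : ℤ) ^ k) ((2 : ℤ) ^ e) :=
    (((Nat.prime_iff_prime_int.mp hp).coprime_iff_not_dvd).mpr
      (odd_prime_not_dvd_two_pow hp hp2 e)).pow_left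
  exact hco.dvd_of_dvd_mul_right (hz'.symm ▸ dvd_mul_of_dvd_left hk z)

theorem padicValInt_eq_of_exact {H : ℤ} {N : ℕ} (h : (2 : ℤ) ^ N ∣ H)
    (h' : ¬ (2 : ℤ) ^ (N + 1) ∣ H) : padicValInt 2 H = N := by
  have : Fact (Nat.Prime 2) := ⟨Nat.prime_two⟩
  have h0 : H ≠ 0 := fun h0 => h' (h0 ▸ dvd_zero _)
  have a := ((padicValInt_dvd_iff (p := 2) N H).mp (by exact_mod_cast h)).resolve_left h0
  have b : ¬ N + 1 ≤ padicValInt 2 H := fun hle =>
    h' (by exact_mod_cast (padicValInt_dvd_iff (p := 2) (N + 1) H).mpr (Or.inr hle))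
  omega

theorem semistable_of_member (hW : W.IsSemistableModel)
    (n x : ℤ) {M : WeierstrassCurve ℤ} {H : ℤ}
    (h4 : (M.c₄ : Qb) = fC4 (ptR F n x) (ptS F n x)) (hodd : Odd M.c₄)
    (hD : M.Δ = W.Δ * H ^ 5)
    (hcong : ∀ p : ℕ, p.Prime → p ≠ 2 → (p : ℤ) ∣ 30 * W.Δ * W.c₄ →
      (p : ℤ) ∣ M.c₄ - W.c₄ ∧ (p : ℤ) ∣ H - 1)
    (hDQ : (M.Δ : Qb) = fD (ptR F n x) (ptS F n x) ^ 5) : M.IsSemistableModel := by
  intro p hp hpΔ hpc
  have hpp := Nat.prime_iff_prime_int.mp hp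
  by_cases hp2 : p = 2
  · subst hp2
    exact Int.not_even_iff_odd.mpr hodd (even_iff_two_dvd.mpr (by exact_mod_cast hpc))
  by_cases h30 : (p : ℤ) ∣ 30 * W.Δ * W.c₄
  · obtain ⟨hc, hH⟩ := hcong p hp hp2 h30
    have hc' : (p : ℤ) ∣ W.c₄ := by
      have := dvd_sub hpc hc
      rwa [sub_sub_cancel] at this
    refine hW p hp ?_ hc'
    rw [hD] at hpΔ
    refine (hpp.dvd_or_dvd hpΔ).resolve_right fun h => hpp.not_dvd_one ?_
    have := dvd_sub (hpp.dvd_of_dvd_pow h) hH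
    rwa [sub_sub_cancel] at this
  · have h30' : ¬ (p : ℤ) ∣ 30 * W.Δ := fun h => h30 (h.mul_right _)
    have hp5 : p ≠ 5 := by
      rintro rfl
      exact h30' ((show ((5 : ℕ) : ℤ) ∣ 30 by norm_num).mul_right _)
    obtain ⟨A, hA⟩ := Arith.exists_liesOverPrime hp
    obtain ⟨hrA, hsA⟩ := F.base_mem hp h30' hA
    obtain ⟨e4, -, eD⟩ := base_lift F (r := (⟨F.r₀, hrA⟩ : A)) (s := ⟨F.s₀, hsA⟩) rfl rfl
    have eR := lift_ptR F (r := (⟨F.r₀, hrA⟩ : A)) (s := ⟨F.s₀, hsA⟩) rfl rfl n x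
    have eS := lift_ptS F (r := (⟨F.r₀, hrA⟩ : A)) (s := ⟨F.s₀, hsA⟩) rfl rfl n x
    generalize (⟨F.r₀, hrA⟩ : A) = r at e4 eD eR eS
    generalize (⟨F.s₀, hsA⟩ : A) = s at e4 eD eR eS
    set R : A := r + (x : A) * fD r s * (mR r s + 2 * (2 * fD r s ^ 4 * (n : A)) * r) with hR
    set S : A := s + (x : A) * fD r s * (mS r s + 2 * (2 * fD r s ^ 4 * (n : A)) * s) with hS
    have hinj : Function.Injective A.subtype := fun a b h => Subtype.ext h
    have f4 : fC4 R S = (M.c₄ : A) :=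
      hinj (by rw [map_fC4, eR, eS, map_intCast, h4])
    have fD' : fD R S ^ 5 = (M.Δ : A) :=
      hinj (by rw [map_pow, map_fD, eR, eS, map_intCast, hDQ])
    set φ := residue A with hφ
    have z4 : fC4 (φ R) (φ S) = 0 := by
      rw [← map_fC4, f4, map_intCast]
      exact (intCast_residue_eq_zero_iff hA hp _).mpr hpc
    have zD : fD (φ R) (φ S) = 0 := by
      have : fD (φ R) (φ S) ^ 5 = 0 := by
        rw [← map_fD, ← map_pow, fD', map_intCast]
        exact (intCast_residue_eq_zero_iff hA hp _).mpr hpΔ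
      simpa using this
    have h5 : (3125 : ResidueField A) ≠ 0 := fun h => by
      have h' : ((3125 : ℤ) : ResidueField A) = 0 := by exact_mod_cast h
      rw [intCast_residue_eq_zero_iff hA hp, show (3125 : ℤ) = 5 ^ 5 by norm_num] at h'
      exact hp5 ((Nat.prime_dvd_prime_iff_eq hp (by norm_num)).mp
        (by exact_mod_cast hpp.dvd_of_dvd_pow h'))
    have b1 := bezout_fst (φ R) (φ S)
    have b2 := bezout_snd (φ R) (φ S)
    rw [z4, zD] at b1 b2
    simp only [mul_zero, add_zero, mul_eq_zero, h5, false_or,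
      pow_eq_zero_iff (by norm_num : (31 : ℕ) ≠ 0)] at b1 b2
    have hdet : R * (fD r s * (mS r s + 2 * (2 * fD r s ^ 4 * (n : A)) * s))
        - S * (fD r s * (mR r s + 2 * (2 * fD r s ^ 4 * (n : A)) * r))
          = -(fD r s * fC4 r s) := by
      rw [hR, hS]
      linear_combination fD r s * det_covariant r s
    have hd := congrArg φ hdet
    rw [map_sub, map_mul φ R, map_mul φ S, b1, b2, zero_mul, zero_mul, sub_self, map_neg,
      map_mul, e4, map_intCast] at hd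
    rcases mul_eq_zero.mp (neg_eq_zero.mp hd.symm) with h | h
    · refine h30' (Dvd.dvd.mul_left ?_ 30)
      refine (intCast_residue_eq_zero_iff hA hp _).mp ?_
      rw [← map_intCast φ, ← eD, map_pow, h, zero_pow (by norm_num)]
    · exact h30 (((intCast_residue_eq_zero_iff hA hp _).mp h).mul_left _)

/-- Members exist along an arithmetic progression of parameters outside `[-12, 12]`. -/
theorem exists_members (hΔ : W.Δ ≠ 0) (hW : W.IsSemistableModel) (h2 : (2 : ℤ) ∣ W.Δ) (n : ℤ) :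
    ∃ x₀ d : ℤ, d ≠ 0 ∧ ∀ j : ℕ, 12 < |x₀ + d * (j : ℤ)| ∧
      ∃ M, IsMember F n (x₀ + d * (j : ℤ)) M := by
  obtain ⟨A, hA⟩ := Arith.exists_liesOverPrime Nat.prime_two
  obtain ⟨p4, p6, ph, hp4, hp6, hph⟩ := exists_line_polys F n
  have hev4 : ∀ x : ℚ, ((p4.eval x : ℚ) : Qb) = fC4 (ptR F n x) (ptS F n x) := by
    intro x
    have := congrArg (Polynomial.eval (algebraMap ℚ Qb x)) hp4
    rw [eval_map, eval₂_at_apply, eval_fC4] at this
    simp only [eval_add, eval_mul, eval_C, eval_X, eq_ratCast] at this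
    exact this
  have hev6 : ∀ x : ℚ, ((p6.eval x : ℚ) : Qb) = fC6 (ptR F n x) (ptS F n x) := by
    intro x
    have := congrArg (Polynomial.eval (algebraMap ℚ Qb x)) hp6
    rw [eval_map, eval₂_at_apply, eval_fC6] at this
    simp only [eval_add, eval_mul, eval_C, eval_X, eq_ratCast] at this
    exact this
  have hevh : ∀ x : ℚ, fD F.r₀ F.s₀ * ((ph.eval x : ℚ) : Qb) = fD (ptR F n x) (ptS F n x) := by
    intro x
    have := congrArg (Polynomial.eval (algebraMap ℚ Qb x)) hph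
    rw [eval_mul, eval_C, eval_map, eval₂_at_apply, eval_fD] at this
    simp only [eval_add, eval_mul, eval_C, eval_X, eq_ratCast] at this
    exact this
  have z4 : p4.eval 0 = (W.c₄ : ℚ) := by
    apply Rat.cast_injective (α := Qb)
    rw [hev4]
    simp [ptR, ptS, F.c4_base]
  have z6 : p6.eval 0 = (W.c₆ : ℚ) := by
    apply Rat.cast_injective (α := Qb)
    rw [hev6]
    simp [ptR, ptS, F.c6_base]
  have zh : ph.eval 0 = 1 := by
    apply Rat.cast_injective (α := Qb)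
    apply mul_left_cancel₀ F.fD_base
    rw [hevh]
    simp [ptR, ptS]
  have hc4 : Odd W.c₄ := odd_c₄_of_semistable hW h2
  have hK : (30 * W.Δ * W.c₄) ^ 3 ≠ 0 :=
    pow_ne_zero _ (mul_ne_zero (mul_ne_zero (by norm_num) hΔ)
      (c₄_ne_zero_of_semistable hΔ hW))
  obtain ⟨L4, hL4, hm4⟩ := exists_modulus p4 hK
  obtain ⟨L6, hL6, hm6⟩ := exists_modulus p6 hK
  obtain ⟨Lh, hLh, hmh⟩ := exists_modulus ph hK
  have hL : Odd (L4 * L6 * Lh) := (hL4.mul hL6).mul hLh
  obtain ⟨f, b, hb, hf, hfev⟩ := exists_reduction F hA hW h2 n hph hL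
  set N := padicValInt 2 W.Δ % 3 + 3 with hN
  obtain ⟨y₀, -, hy₀⟩ := exists_exact_power f hf N (by omega)
  set L := L4 * L6 * Lh with hLdef
  have hL0 : L ≠ 0 := fun h => by simp [h] at hL
  set T : ℤ := |y₀| + 4 with hT
  refine ⟨L * (y₀ + 2 ^ (N + 1) * T), L * 2 ^ (N + 1), mul_ne_zero hL0 (by positivity),
    fun j => ?_⟩
  set y := y₀ + 2 ^ (N + 1) * (T + (j : ℤ)) with hy
  have hxy : L * (y₀ + 2 ^ (N + 1) * T) + L * 2 ^ (N + 1) * (j : ℤ) = L * y := by rw [hy]; ring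
  rw [hxy]
  constructor
  · have h4 : (4 : ℤ) ≤ 2 ^ (N + 1) := by
      rw [show (4 : ℤ) = 2 ^ 2 by norm_num]
      exact pow_le_pow_right₀ (by norm_num) (by omega)
    have h12 : 12 < y := by
      have := neg_abs_le y₀
      have hTj : (4 : ℤ) * (T + (j : ℤ)) ≤ 2 ^ (N + 1) * (T + (j : ℤ)) :=
        mul_le_mul_of_nonneg_right h4 (by positivity)
      have := abs_nonneg y₀
      linarith
    rw [abs_mul]
    calc (12 : ℤ) < y := h12
      _ ≤ |y| := le_abs_self y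
      _ = 1 * |y| := (one_mul _).symm
      _ ≤ |L| * |y| := mul_le_mul_of_nonneg_right (Int.one_le_abs hL0) (abs_nonneg y)
  set x : ℤ := L * y with hx
  obtain ⟨C4, hC4, hC4p⟩ := exists_int_near (q := p4.eval (x : ℚ)) (c := W.c₄)
    (fun A hA => by rw [hev4]; exact (values_at_two F hA h2 n x).1.1)
    (by
      have := hm4 (L6 * Lh * y)
      rw [z4, show L4 * (L6 * Lh * y) = x by rw [hx, hLdef]; ring] at this
      exact this)
  obtain ⟨C6, hC6, hC6p⟩ := exists_int_near (q := p6.eval (x : ℚ)) (c := W.c₆)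
    (fun A hA => by rw [hev6]; exact (values_at_two F hA h2 n x).1.2)
    (by
      have := hm6 (L4 * Lh * y)
      rw [z6, show L6 * (L4 * Lh * y) = x by rw [hx, hLdef]; ring] at this
      exact this)
  obtain ⟨hdvd, hndvd⟩ := hy₀ (T + (j : ℤ))
  rw [← hy] at hdvd hndvd
  have hfx : ((f.eval y : ℤ) : ℚ) = (b : ℚ) * ph.eval (x : ℚ) := by rw [hfev y, hx]
  obtain ⟨H, hH, hHp⟩ := exists_int_near (q := ph.eval (x : ℚ)) (c := 1)
    (fun A hA => by
      have hb0 : (b : ℚ) ≠ 0 := Int.cast_ne_zero.mpr fun h => by simp [h] at hb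
      rw [show ph.eval (x : ℚ) = ((f.eval y : ℤ) : ℚ) * (b : ℚ)⁻¹ by
        rw [hfx]; field_simp, Rat.cast_mul, Rat.cast_inv, Rat.cast_intCast, Rat.cast_intCast]
      exact mul_mem (intCast_mem _ _) (intCast_inv_mem hA Nat.prime_two fun h =>
        Int.not_even_iff_odd.mpr hb (even_iff_two_dvd.mpr (by exact_mod_cast h))))
    (by
      have := hmh (L4 * L6 * y)
      rw [zh, show Lh * (L4 * L6 * y) = x by rw [hx, hLdef]; ring] at this
      exact_mod_cast this)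
  have hfH : f.eval y = b * H := by
    rw [← hH] at hfx
    exact_mod_cast hfx
  have hH2 : padicValInt 2 H = N := by
    refine padicValInt_eq_of_exact ?_ fun h => hndvd (hfH ▸ h.mul_left b)
    refine IsCoprime.dvd_of_dvd_mul_left ?_ (hfH ▸ hdvd)
    refine ((Int.prime_two.coprime_iff_not_dvd).mpr fun h => ?_).pow_left
    exact Int.not_even_iff_odd.mpr hb (even_iff_two_dvd.mpr h)
  have hH0 : H ≠ 0 := fun h => by
    rw [h, mul_zero] at hfH
    exact hndvd (hfH ▸ dvd_zero _)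
  have hC4' : (C4 : Qb) = fC4 (ptR F n x) (ptS F n x) := by
    rw [← hev4, ← hC4, Rat.cast_intCast]
  have hC6' : (C6 : Qb) = fC6 (ptR F n x) (ptS F n x) := by
    rw [← hev6, ← hC6, Rat.cast_intCast]
  have hDQ : ((W.Δ * H ^ 5 : ℤ) : Qb) = fD (ptR F n x) (ptS F n x) ^ 5 := by
    rw [← hevh, ← hH, Rat.cast_intCast, mul_pow, base_Δ, Int.cast_mul, Int.cast_pow]
  have hrel : C4 ^ 3 - C6 ^ 2 = 1728 * (W.Δ * H ^ 5) := by
    apply Int.cast_injective (α := Qb)
    rw [Int.cast_sub, Int.cast_pow, Int.cast_pow, Int.cast_mul, Int.cast_ofNat, hC4', hC6', hDQ]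
    exact fC4_cube_sub_fC6_sq _ _
  obtain ⟨-, hv4, hv6⟩ := values_at_two F hA h2 n x
  have hodd : Odd C4 := by
    obtain ⟨a, ha⟩ := hv4 C4 hC4'
    obtain ⟨c, hc⟩ := hc4
    exact ⟨a + c, by linarith⟩
  have h27 : (3 : ℤ) ^ 3 ∣ (30 * W.Δ * W.c₄) ^ 3 :=
    pow_dvd_pow_of_dvd ((((show (3 : ℤ) ∣ 30 by norm_num)).mul_right _).mul_right _) 3
  obtain ⟨M, hM4, hM6, hMD⟩ := exists_model hc4 hodd hrel (hv6 C6 hC6')
    (by simpa using hC4p 3 3 Nat.prime_three (by norm_num) (by exact_mod_cast h27))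
    (by simpa using hC6p 3 3 Nat.prime_three (by norm_num) (by exact_mod_cast h27))
  refine ⟨M, ?_, ?_, ?_, ?_, by rw [hM4, hC4'], by rw [hM6, hC6']⟩
  · rw [hMD]; exact mul_ne_zero hΔ (pow_ne_zero _ hH0)
  · refine semistable_of_member F hW n x (H := H) (by rw [hM4, hC4']) (hM4 ▸ hodd) hMD
      (fun p hp hp2 h => ?_) (by rw [hMD, hDQ])
    have hk : (p : ℤ) ^ 1 ∣ (30 * W.Δ * W.c₄) ^ 3 := by
      rw [pow_one]; exact dvd_pow h (by norm_num)
    rw [hM4]
    exact ⟨by simpa using hC4p p 1 hp hp2 hk, by simpa using hHp p 1 hp hp2 hk⟩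
  · rw [hMD]; exact h2.mul_right _
  · have : Fact (Nat.Prime 2) := ⟨Nat.prime_two⟩
    have h5 : padicValInt 2 (H ^ 5) = 5 * N := by
      rw [show H ^ 5 = H * (H * (H * (H * H))) by ring,
        padicValInt.mul hH0 (by simp [hH0]), padicValInt.mul hH0 (by simp [hH0]),
        padicValInt.mul hH0 (by simp [hH0]), padicValInt.mul hH0 hH0, hH2]
      ring
    rw [hMD, padicValInt.mul hΔ (pow_ne_zero _ hH0), h5]
    omega

end Fermat.Agent.RT.Two.Switch
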