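import Mathlib
import Fermat.Agent.RT.Two.Switch.Members
import Fermat.Agent.RT.Two.Switch.Trace
import Fermat.Agent.Switch.Main

/-!
# The 3-5 switch with prescribed valuation of the discriminant at 2
-/

set_option autoImplicit false

namespace Fermat.Agent.RT.Two.Switch

open Polynomial WeierstrassCurve Fermat.Agent.Switch
open scoped WeierstrassCurve.Affine

local notation "Qb" => AlgebraicClosure ℚ

variable {W : WeierstrassCurve ℤ} (F : FamilyData W)

theorem exists_irreducible_member (hΔ : W.Δ ≠ 0) (hW : W.IsSemistableModel)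
    (h2 : (2 : ℤ) ∣ W.Δ) :
    ∃ (n x : ℤ) (M : WeierstrassCurve ℤ),
      12 < |x| ∧ IsMember F n x M ∧ M.ModRepIsIrreducible 3 := by
  obtain ⟨n, hn⟩ := exists_dir_ne F hΔ
  obtain ⟨x₀, d, hd, hj⟩ := exists_members F hΔ hW h2 n
  by_contra hall
  simp only [not_exists, not_and] at hall
  choose hx M hM using hj
  obtain ⟨φ⟩ : Nonempty (Qb →ₐ[ℚ] ℂ) := ⟨IsAlgClosed.lift⟩
  have hmapD : ∀ a b : Qb, φ (fD a b) = fD (φ a) (φ b) := fun a b => map_fD (φ : Qb →+* ℂ) a b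
  have hmap4 : ∀ a b : Qb, φ (fC4 a b) = fC4 (φ a) (φ b) := fun a b => map_fC4 (φ : Qb →+* ℂ) a b
  have hmap6 : ∀ a b : Qb, φ (fC6 a b) = fC6 (φ a) (φ b) := fun a b => map_fC6 (φ : Qb →+* ℂ) a b
  set r := φ (ptR F n (x₀ : ℚ)) with hr
  set s := φ (ptS F n (x₀ : ℚ)) with hs
  set u := (d : ℂ) * φ (dirR F n) with hu
  set v := (d : ℂ) * φ (dirS F n) with hv
  have hd' : (d : ℂ) ≠ 0 := Int.cast_ne_zero.mpr hd
  have hpt : ∀ j : ℕ, φ (ptR F n ((x₀ + d * (j : ℤ) : ℤ) : ℚ)) = r + (j : ℂ) * u ∧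
      φ (ptS F n ((x₀ + d * (j : ℤ) : ℤ) : ℚ)) = s + (j : ℂ) * v := by
    intro j
    constructor <;>
      (simp only [hr, hs, hu, hv, ptR, ptS]; push_cast; simp only [map_add, map_mul, map_intCast,
        map_natCast]; ring)
  have hdet : r * v - s * u ≠ 0 := by
    have e : r * v - s * u = (d : ℂ) * φ (-(fD F.r₀ F.s₀ * (W.c₄ : Qb))) := by
      rw [← det_dir F n, hr, hs, hu, hv]
      simp only [ptR, ptS, map_add, map_mul, map_sub]
      ring
    rw [e]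
    exact mul_ne_zero hd' ((map_ne_zero φ).mpr (neg_ne_zero.mpr (mul_ne_zero F.fD_base
      (Int.cast_ne_zero.mpr (c₄_ne_zero_of_semistable hΔ hW)))))
  have hdir : fD u v ≠ 0 := by
    rw [hu, hv, fD_smul, ← hmapD]
    exact mul_ne_zero (pow_ne_zero _ hd') ((map_ne_zero φ).mpr hn)
  have h0 : fC4 r s ≠ 0 := by
    obtain ⟨hM0, hM1, -, -, h4, -⟩ := hM 0
    rw [show r = φ (ptR F n ((x₀ + d * ((0 : ℕ) : ℤ) : ℤ) : ℚ)) by simp [hr],
      show s = φ (ptS F n ((x₀ + d * ((0 : ℕ) : ℤ) : ℤ) : ℚ)) by simp [hs], ← hmap4, ← h4,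
      map_intCast]
    exact Int.cast_ne_zero.mpr (c₄_ne_zero_of_semistable hM0 hM1)
  refine false_of_quartic_roots hdet h0 hdir fun j => ?_
  obtain ⟨hM0, -, -, -, h4, h6⟩ := hM j
  obtain ⟨z, hzn⟩ := exists_int_root_of_reducible _ hM0 (hall n _ (M j) (hx j) (hM j))
  refine ⟨z, ?_⟩
  have e4 := congrArg φ h4
  have e6 := congrArg φ h6
  rw [hmap4, map_intCast, (hpt j).1, (hpt j).2] at e4
  rw [hmap6, map_intCast, (hpt j).1, (hpt j).2] at e6
  have hcast := congrArg (Int.cast : ℤ → ℂ) hzn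
  simp only [quartic] at hcast
  push_cast at hcast
  rw [e4, e6] at hcast
  simp only [quartic]
  exact hcast

theorem congruent_trace {n x : ℤ} (hx : 12 < |x|) {M : WeierstrassCurve ℤ}
    (hM : IsMember F n x M) (σ : Qb ≃ₐ[ℚ] Qb) :
    Affine.Point.galoisTrace (K := Qb) ℚ (W.map (Int.castRingHom ℚ)).toAffine 5 σ
      = Affine.Point.galoisTrace (K := Qb) ℚ (M.map (Int.castRingHom ℚ)).toAffine 5 σ := by
  obtain ⟨hM0, -, -, -, h4, h6⟩ := hM
  set l : ℚ := 1 - (x : ℚ) * (dirCoef F n : ℚ) / 12 with hl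
  have hl0 : l ≠ 0 := by
    intro h
    have h12 : x * dirCoef F n = 12 := by
      have : (x : ℚ) * (dirCoef F n : ℚ) = 12 := by rw [hl] at h; linarith
      exact_mod_cast this
    have hle : |x| ≤ 12 := by
      have := Int.le_of_dvd (by norm_num : (0 : ℤ) < 12)
        ((abs_dvd x 12).mpr ⟨dirCoef F n, h12.symm⟩)
      exact this
    omega
  have hlQ : (l : Qb) ≠ 0 := by exact_mod_cast hl0
  set t₂ : ℚ := -(x : ℚ) * (W.c₄ : ℚ) / 12 / l with ht
  have hptR : ptR F n x = (l : Qb) * (F.r₀ + (t₂ : Qb) * F.u) := by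
    rw [mul_add, ← mul_assoc, ← Rat.cast_mul, ht, mul_div_cancel₀ _ hl0, hl]
    simp only [ptR, dirR]
    push_cast
    ring
  have hptS : ptS F n x = (l : Qb) * (F.s₀ + (t₂ : Qb) * F.v) := by
    rw [mul_add, ← mul_assoc, ← Rat.cast_mul, ht, mul_div_cancel₀ _ hl0, hl]
    simp only [ptS, dirS]
    push_cast
    ring
  rw [hptR, hptS, fC4_smul] at h4
  rw [hptR, hptS, fC6_smul] at h6
  set V : WeierstrassCurve ℚ :=
    ⟨W.a₁, W.a₂, W.a₃, (W.a₄ : ℚ) - ((M.c₄ : ℚ) / l ^ 20 - W.c₄) / 48,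
      (W.a₆ : ℚ) - (W.b₂ : ℚ) * ((M.c₄ : ℚ) / l ^ 20 - W.c₄) / 576
        - ((M.c₆ : ℚ) / l ^ 30 - W.c₆) / 864⟩ with hV
  have hV4 : V.c₄ = (M.c₄ : ℚ) / l ^ 20 := by
    simp only [hV, WeierstrassCurve.c₄, WeierstrassCurve.b₂, WeierstrassCurve.b₄]
    push_cast
    ring
  have hV6 : V.c₆ = (M.c₆ : ℚ) / l ^ 30 := by
    simp only [hV, WeierstrassCurve.c₄, WeierstrassCurve.c₆, WeierstrassCurve.b₂,
      WeierstrassCurve.b₄, WeierstrassCurve.b₆]
    push_cast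
    ring
  have hfib : Fib (V⁄Qb) (F.r₀ + (t₂ : Qb) * F.u) (F.s₀ + (t₂ : Qb) * F.v) := by
    refine ⟨?_, ?_, fun h0 => hM0 ?_⟩
    · show (V.map (algebraMap ℚ Qb)).c₄ = _
      rw [map_c₄, hV4, eq_ratCast, Rat.cast_div, Rat.cast_pow, Rat.cast_intCast, h4]
      field_simp
    · show (V.map (algebraMap ℚ Qb)).c₆ = _
      rw [map_c₆, hV6, eq_ratCast, Rat.cast_div, Rat.cast_pow, Rat.cast_intCast, h6]
      field_simp
    · have h := congrArg (Int.cast : ℤ → Qb) M.c_relation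
      push_cast at h
      rw [h4, h6, ← fC4_smul, ← fC6_smul, fC4_cube_sub_fC6_sq, fD_smul, h0, mul_zero,
        zero_pow (by norm_num), mul_zero] at h
      exact_mod_cast (mul_eq_zero.mp h).resolve_left (by norm_num)
  have : V.IsElliptic := ⟨isUnit_iff_ne_zero.mpr fun h => hfib.Δ_ne_zero (by
    show (V.map (algebraMap ℚ Qb)).Δ = 0
    rw [map_Δ, h, map_zero])⟩
  set u : ℚ := (l ^ 5)⁻¹ with hu
  have hu0 : u ≠ 0 := inv_ne_zero (pow_ne_zero _ hl0)
  set cs : ℚ := (u * M.a₁ - W.a₁) / 2 with hcs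
  set cr : ℚ := (u ^ 2 * M.a₂ - W.a₂ + cs * W.a₁ + cs ^ 2) / 3 with hcr
  set ct : ℚ := (u ^ 3 * M.a₃ - W.a₃ - cr * W.a₁) / 2 with hct
  set C : VariableChange ℚ := ⟨Units.mk0 u hu0, cr, cs, ct⟩ with hC
  have hCV : C • V = M.map (Int.castRingHom ℚ) := by
    refine curve_ext ?_ ?_ ?_ ?_ ?_
    · rw [variableChange_a₁]
      simp only [hC, hV, hcs, map_a₁, Units.val_inv_eq_inv_val, Units.val_mk0, eq_intCast]
      field_simp
      ring
    · rw [variableChange_a₂]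
      simp only [hC, hV, hcr, map_a₂, Units.val_inv_eq_inv_val, Units.val_mk0, eq_intCast]
      field_simp
      ring
    · rw [variableChange_a₃]
      simp only [hC, hV, hct, map_a₃, Units.val_inv_eq_inv_val, Units.val_mk0, eq_intCast]
      field_simp
      ring
    · rw [variableChange_c₄, hV4, map_c₄, eq_intCast]
      simp only [hC, Units.val_inv_eq_inv_val, Units.val_mk0, hu, inv_inv]
      field_simp
    · rw [variableChange_c₆, hV6, map_c₆, eq_intCast]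
      simp only [hC, Units.val_inv_eq_inv_val, Units.val_mk0, hu, inv_inv]
      field_simp
  rw [← hCV, galoisTrace_variableChange V C 5 σ]
  exact F.galoisTrace_eq (W.map (Int.castRingHom ℚ)) V 0 t₂
    (fun U hU => by
      rcases hU with rfl | hU
      · exact ⟨by simp, by simp, by simp⟩
      · rw [Set.mem_singleton_iff] at hU
        subst hU
        exact ⟨by simp [hV], by simp [hV], by simp [hV]⟩)
    (fib_base F) hfib σ

/-- The 3-5 switch preserving evenness of the discriminant and making its 2-adic valuation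
divisible by 3. -/
theorem exists_switch_two (W : WeierstrassCurve ℤ) (hW0 : W.Δ ≠ 0) (hW : W.IsSemistableModel)
    (h2 : (2 : ℤ) ∣ W.Δ) :
    ∃ W1 : WeierstrassCurve ℤ, W1.Δ ≠ 0 ∧ W1.IsSemistableModel ∧ W1.ModRepIsIrreducible 3 ∧
      (2 : ℤ) ∣ W1.Δ ∧ 3 ∣ padicValInt 2 W1.Δ ∧
      ∀ l : ℕ, l.Prime → W.IsGoodPrimeFor l → W1.IsGoodPrimeFor l → l ≠ 5 →
        (5 : ℤ) ∣ (W1.apOfModel l - W.apOfModel l) := by
  obtain ⟨F⟩ := exists_familyData hW0 hW
  obtain ⟨n, x, M, hx, hM, hirr⟩ := exists_irreducible_member F hW0 hW h2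
  refine ⟨M, hM.1, hM.2.1, hirr, hM.2.2.1, hM.2.2.2.1, fun l hl hg hg' h5 => ?_⟩
  have : Fact (Nat.Prime 5) := ⟨by norm_num⟩
  obtain ⟨A, hA⟩ := Arith.exists_liesOverPrime hl
  obtain ⟨σ, hσ⟩ := Arith.exists_isFrobeniusAt hA hl
  have e := EC.FrobTrace.galoisTrace_frobenius (p := 5) W hl hg h5 hA hσ
  have e' := EC.FrobTrace.galoisTrace_frobenius (p := 5) M hl hg' h5 hA hσ
  have key := congruent_trace F hx hM σ
  rw [show (W.map (Int.castRingHom ℚ)).toAffine = W.map (Int.castRingHom ℚ) from rfl, e] at key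
  rw [show (M.map (Int.castRingHom ℚ)).toAffine = M.map (Int.castRingHom ℚ) from rfl, e'] at key
  exact (ZMod.intCast_zmod_eq_zero_iff_dvd _ 5).mp (by push_cast; rw [key, sub_self])

end Fermat.Agent.RT.Two.Switch
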